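import Mathlib

set_option autoImplicit false

/-!
# Two multiplicative real-valued functions with the same unit ball and the same value at a
  uniformiser agree
-/

namespace Fermat.Agent.S55.H175

/-- One-sided version. -/
theorem not_lt_of_le_one_iff {K : Type*} [Field K] (f g : K →*₀ ℝ)
    (hf0 : ∀ x, 0 ≤ f x) (hg0 : ∀ x, 0 ≤ g x)
    (c : K) (hc : f c = g c) (hc0 : 0 < f c) (hc1 : f c < 1)
    (h : ∀ y, f y ≤ 1 ↔ g y ≤ 1) (x : K) : ¬ g x < f x := by
  intro hlt
  have hfx : 0 < f x := lt_of_le_of_lt (hg0 x) hlt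
  have hx0 : x ≠ 0 := by
    rintro rfl
    simp at hfx
  have hgx : 0 < g x := by
    rcases (hg0 x).lt_or_eq with h1 | h1
    · exact h1
    · exfalso
      have : x = 0 := by
        by_contra hne
        have := (map_ne_zero g).mpr hne
        exact this h1.symm
      exact hx0 this
  set u : ℝ := (f c)⁻¹ with hu
  have hu1 : 1 < u := by
    rw [hu]
    exact (one_lt_inv₀ hc0).mpr hc1
  have hρ : 1 < f x / g x := by
    rw [one_lt_div hgx]; exact hlt
  obtain ⟨b, hb⟩ := pow_unbounded_of_one_lt u hρ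
  have hgb : 0 < g x ^ b := pow_pos hgx b
  obtain ⟨a, ha1, ha2⟩ := exists_mem_Ico_zpow hgb hu1
  -- the test element
  have hc_ne : c ≠ 0 := by
    rintro rfl
    simp at hc0
  have hfy : f (x ^ b * c ^ (a + 1)) = f x ^ b * (u ^ (a + 1))⁻¹ := by
    rw [map_mul, map_pow, map_zpow₀, hu, inv_zpow, inv_inv]
  have hgy : g (x ^ b * c ^ (a + 1)) = g x ^ b * (u ^ (a + 1))⁻¹ := by
    rw [map_mul, map_pow, map_zpow₀, ← hc, hu, inv_zpow, inv_inv]
  have hupos : 0 < u ^ (a + 1) := zpow_pos (lt_trans one_pos hu1) _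
  have hg1 : g (x ^ b * c ^ (a + 1)) ≤ 1 := by
    rw [hgy, ← div_eq_mul_inv, div_le_one hupos]
    exact ha2.le
  have hf1 : 1 < f (x ^ b * c ^ (a + 1)) := by
    rw [hfy, ← div_eq_mul_inv, one_lt_div hupos]
    have h1 : u ^ (a + 1) = u ^ a * u := by
      rw [zpow_add_one₀ (ne_of_gt (lt_trans one_pos hu1))]
    rw [h1]
    have h2 : (f x / g x) ^ b = f x ^ b / g x ^ b := div_pow _ _ _
    have h3 : u < f x ^ b / g x ^ b := h2 ▸ hb
    have h4 : u * g x ^ b < f x ^ b := by
      rwa [lt_div_iff₀ hgb] at h3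
    calc u ^ a * u ≤ g x ^ b * u := by
          apply mul_le_mul_of_nonneg_right ha1 (le_of_lt (lt_trans one_pos hu1))
      _ = u * g x ^ b := mul_comm _ _
      _ < f x ^ b := h4
  exact absurd ((h _).mpr hg1) (not_le.mpr hf1)

/-- Two multiplicative nonnegative real-valued functions on a field with the same unit ball and
the same value `∈ (0,1)` at some element are equal. -/
theorem eq_of_le_one_iff {K : Type*} [Field K] (f g : K →*₀ ℝ)
    (hf0 : ∀ x, 0 ≤ f x) (hg0 : ∀ x, 0 ≤ g x)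
    (c : K) (hc : f c = g c) (hc0 : 0 < f c) (hc1 : f c < 1)
    (h : ∀ y, f y ≤ 1 ↔ g y ≤ 1) (x : K) : f x = g x := by
  apply le_antisymm
  · exact not_lt.mp (not_lt_of_le_one_iff f g hf0 hg0 c hc hc0 hc1 h x)
  · exact not_lt.mp (not_lt_of_le_one_iff g f hg0 hf0 c hc.symm (hc ▸ hc0) (hc ▸ hc1)
      (fun y => (h y).symm) x)

end Fermat.Agent.S55.H175
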