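import Mathlib
import Fermat.Prelude.Def_GaloisRep_CompletionBridge
import Fermat.Agent.S55.H175.NormEq

set_option autoImplicit false
set_option linter.style.haveILetI false

/-!
# The local Galois group at `q` is the decomposition group of the `q`-adic place of `ℚ̄`

`localGaloisToGlobal q : Gal(ℚ̄_q/ℚ_q) →* Gal(ℚ̄/ℚ)` is injective with range the decomposition
subgroup of `padicPlace q`.
-/

open scoped NNReal Pointwise
open Polynomial

namespace Fermat.Agent.S55.H175

variable (q : ℕ) [Fact q.Prime]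

theorem mem_padicPlace_iff_norm {x : AlgebraicClosure ℚ} :
    x ∈ padicPlace q ↔ ‖padicEmbedding q x‖ ≤ 1 := by
  rw [mem_padicPlace_iff]
  exact Iff.rfl

theorem padicEmbedding_injective : Function.Injective (padicEmbedding q) :=
  (padicEmbedding q).toRingHom.injective

theorem norm_padicEmbedding_natCast_self : ‖padicEmbedding q (q : AlgebraicClosure ℚ)‖ = (q : ℝ)⁻¹ := by
  rw [map_natCast]
  have h := PadicAlgCl.valuation_p q
  have h2 : ((Valued.v (q : PadicAlgCl q) : ℝ≥0) : ℝ) = ‖(q : PadicAlgCl q)‖ :=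
    PadicAlgCl.valuation_coe q _
  rw [← h2, h]
  simp

/-- Elements of the decomposition group are isometries for the `q`-adic norm. -/
theorem norm_padicEmbedding_smul (σ : AlgebraicClosure ℚ ≃ₐ[ℚ] AlgebraicClosure ℚ)
    (hσ : σ ∈ (padicPlace q).decompositionSubgroup ℚ) (x : AlgebraicClosure ℚ) :
    ‖padicEmbedding q (σ x)‖ = ‖padicEmbedding q x‖ := by
  have hstab : σ • padicPlace q = padicPlace q := MulAction.mem_stabilizer_iff.mp hσ
  have hmem : ∀ y : AlgebraicClosure ℚ, σ y ∈ padicPlace q ↔ y ∈ padicPlace q := by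
    intro y
    constructor
    · intro h
      rw [← hstab] at h
      obtain ⟨z, hz, hzy⟩ := (ValuationSubring.mem_smul_pointwise_iff_exists σ (σ y) _).mp h
      have : z = y := σ.injective hzy
      exact this ▸ hz
    · intro h
      rw [← hstab]
      exact (ValuationSubring.mem_smul_pointwise_iff_exists σ (σ y) _).mpr ⟨y, h, rfl⟩
  let f : AlgebraicClosure ℚ →*₀ ℝ :=
    (normHom : PadicAlgCl q →*₀ ℝ).comp
      ((padicEmbedding q).toRingHom.toMonoidWithZeroHom)
  let g : AlgebraicClosure ℚ →*₀ ℝ :=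
    f.comp (σ : AlgebraicClosure ℚ →+* AlgebraicClosure ℚ).toMonoidWithZeroHom
  have hf : ∀ y, f y = ‖padicEmbedding q y‖ := fun y => rfl
  have hg : ∀ y, g y = ‖padicEmbedding q (σ y)‖ := fun y => rfl
  have hq : (1 : ℝ) < q := by exact_mod_cast (Fact.out : q.Prime).one_lt
  have hfq : f (q : AlgebraicClosure ℚ) = (q : ℝ)⁻¹ := by
    rw [hf]; exact norm_padicEmbedding_natCast_self q
  have hgq : g (q : AlgebraicClosure ℚ) = (q : ℝ)⁻¹ := by
    rw [hg, map_natCast]; exact norm_padicEmbedding_natCast_self q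
  have key := eq_of_le_one_iff g f (fun y => by rw [hg]; exact norm_nonneg _)
    (fun y => by rw [hf]; exact norm_nonneg _) (q : AlgebraicClosure ℚ)
    (by rw [hfq, hgq]) (by rw [hgq]; positivity)
    (by rw [hgq]; exact inv_lt_one_of_one_lt₀ hq)
    (fun y => by
      rw [hg, hf, ← mem_padicPlace_iff_norm, ← mem_padicPlace_iff_norm]
      exact hmem y) x
  exact key

/-- The algebraic numbers are dense in `ℚ̄_q`. -/
theorem denseRange_padicEmbedding : DenseRange (padicEmbedding q) := by
  rw [Metric.denseRange_iff]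
  intro y ε hε
  have hyint : IsIntegral ℚ_[q] y := (Algebra.IsAlgebraic.isAlgebraic y).isIntegral
  set f : ℚ_[q][X] := minpoly ℚ_[q] y with hfdef
  have fmon : f.Monic := minpoly.monic hyint
  have fa0 : f.aeval y = 0 := minpoly.aeval ℚ_[q] y
  have fnatdeg0 : f.natDegree ≠ 0 := (minpoly.natDegree_pos hyint).ne'
  have hε' : (ε / (max ‖y‖ 1)) ^ f.natDegree / (f.natDegree + 1) > 0 := by positivity
  have hdense : DenseRange (algebraMap ℚ ℚ_[q]) := by
    have h := Padic.denseRange_ratCast q
    convert h using 1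
    funext r
    exact eq_ratCast _ r
  obtain ⟨g, gmon, gdeg, gcoeff⟩ :=
    exists_monic_and_natDegree_eq_and_norm_map_algebraMap_coeff_sub_lt hdense fmon hε'
  obtain ⟨b, hb, hab⟩ := exists_aroots_norm_sub_lt_of_norm_coeff_sub_lt (L := PadicAlgCl q)
      hε' fa0 fmon (gmon.map _) (gdeg ▸ (g.natDegree_map _)) gcoeff
      (IsAlgClosed.splits _)
  have hab' : ‖y - b‖ < ε := by
    rw [← Real.rpow_natCast, ← mul_comm_div, div_self, one_mul,
        ← Real.rpow_mul (div_pos hε (by positivity)).le, mul_inv_cancel₀] at hab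
    · simpa [mul_assoc, div_mul_cancel₀ _ (by positivity : (max ‖y‖ 1) > 0).ne'] using hab
    · simp [fnatdeg0]
    · positivity
  -- `b` is a root of a rational polynomial, hence algebraic over `ℚ`
  have hbroot : (g.map (algebraMap ℚ (PadicAlgCl q))).IsRoot b := by
    rw [Polynomial.aroots_def, Polynomial.map_map] at hb
    have h1 := (Polynomial.mem_roots'.mp hb).2
    have h2 : (algebraMap ℚ_[q] (PadicAlgCl q)).comp (algebraMap ℚ ℚ_[q]) =
        algebraMap ℚ (PadicAlgCl q) := Subsingleton.elim _ _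
    rw [h2] at h1
    exact h1
  have hgQ : ((g.map (algebraMap ℚ (AlgebraicClosure ℚ))).map
      (padicEmbedding q).toRingHom) = g.map (algebraMap ℚ (PadicAlgCl q)) := by
    rw [Polynomial.map_map]
    congr 1
    exact (padicEmbedding q).comp_algebraMap
  have hsplit : (g.map (algebraMap ℚ (AlgebraicClosure ℚ))).Splits := IsAlgClosed.splits _
  have hbmem : b ∈ ((g.map (algebraMap ℚ (AlgebraicClosure ℚ))).map
      (padicEmbedding q).toRingHom).roots := by
    rw [hgQ, Polynomial.mem_roots']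
    refine ⟨?_, hbroot⟩
    exact (gmon.map _).ne_zero
  rw [Polynomial.Splits.roots_map hsplit, Multiset.mem_map] at hbmem
  obtain ⟨x, -, hx⟩ := hbmem
  refine ⟨x, ?_⟩
  rw [dist_eq_norm]
  have : (padicEmbedding q) x = b := hx
  rw [this]
  exact hab'

/-- Every element of the decomposition group of the `q`-adic place comes from the local Galois
group. -/
theorem exists_local_of_mem_decomposition (σ : AlgebraicClosure ℚ ≃ₐ[ℚ] AlgebraicClosure ℚ)
    (hσ : σ ∈ (padicPlace q).decompositionSubgroup ℚ) :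
    ∃ τ : PadicAlgCl q ≃ₐ[ℚ_[q]] PadicAlgCl q, localGaloisToGlobal q τ = σ := by
  let j : PadicAlgCl q →+* ℂ_[q] := algebraMap (PadicAlgCl q) ℂ_[q]
  have hj : ∀ y : PadicAlgCl q, ‖j y‖ = ‖y‖ := fun y => PadicComplex.norm_extends q y
  let ι' : AlgebraicClosure ℚ →+* ℂ_[q] := j.comp (padicEmbedding q).toRingHom
  have hι' : ∀ x, ι' x = j (padicEmbedding q x) := fun x => rfl
  letI : PseudoMetricSpace (AlgebraicClosure ℚ) := PseudoMetricSpace.induced ι' inferInstance
  have hdist : ∀ x y : AlgebraicClosure ℚ, dist x y = dist (ι' x) (ι' y) := fun x y => rfl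
  have hiso : Isometry ι' := Isometry.of_dist_eq fun x y => rfl
  have hue : IsUniformInducing ι' := hiso.isUniformInducing
  have hdr : DenseRange ι' := by
    have h1 : DenseRange (j : PadicAlgCl q → ℂ_[q]) := UniformSpace.Completion.denseRange_coe
    have h2 : Continuous (j : PadicAlgCl q → ℂ_[q]) := UniformSpace.Completion.continuous_coe _
    exact h1.comp (denseRange_padicEmbedding q) h2
  let f : AlgebraicClosure ℚ →+* ℂ_[q] :=
    ι'.comp (σ : AlgebraicClosure ℚ →+* AlgebraicClosure ℚ)
  have hfapp : ∀ x, f x = ι' (σ x) := fun x => rfl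
  have hfiso : Isometry f := by
    apply Isometry.of_dist_eq
    intro x y
    rw [hdist, hfapp, hfapp, dist_eq_norm, dist_eq_norm, ← map_sub, ← map_sub, ← map_sub,
      hι', hι', hj, hj]
    exact norm_padicEmbedding_smul q σ hσ (x - y)
  have hf : UniformContinuous f := hfiso.uniformContinuous
  let τh : ℂ_[q] →+* ℂ_[q] := IsDenseInducing.extendRingHom hue hdr hf
  have hτh : ∀ x, τh (ι' x) = ι' (σ x) := fun x =>
    IsDenseInducing.extend_eq (hue.isDenseInducing hdr) hf.continuous x
  have hτcont : Continuous τh := (uniformContinuous_uniformly_extend hue hdr hf).continuous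
  -- `τh` fixes `ℚ_q`
  have hτQq : ∀ a : ℚ_[q], τh (algebraMap ℚ_[q] ℂ_[q] a) = algebraMap ℚ_[q] ℂ_[q] a := by
    intro a
    have h1 : Continuous (fun a : ℚ_[q] => τh (algebraMap ℚ_[q] ℂ_[q] a)) :=
      hτcont.comp (continuous_algebraMap ℚ_[q] ℂ_[q])
    have h2 : Continuous (fun a : ℚ_[q] => algebraMap ℚ_[q] ℂ_[q] a) :=
      continuous_algebraMap ℚ_[q] ℂ_[q]
    refine congrFun (DenseRange.equalizer (Padic.denseRange_ratCast q) h1 h2 ?_) a
    funext r
    show τh (algebraMap ℚ_[q] ℂ_[q] (r : ℚ_[q])) = algebraMap ℚ_[q] ℂ_[q] (r : ℚ_[q])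
    have h3 : algebraMap ℚ_[q] ℂ_[q] (r : ℚ_[q]) = ι' (r : AlgebraicClosure ℚ) := by
      rw [map_ratCast, map_ratCast]
    rw [h3, hτh, map_ratCast]
  let τA : ℂ_[q] →ₐ[ℚ_[q]] ℂ_[q] := { τh with commutes' := hτQq }
  have hτA : ∀ z, τA z = τh z := fun z => rfl
  let jA : PadicAlgCl q →ₐ[ℚ_[q]] ℂ_[q] := IsScalarTower.toAlgHom ℚ_[q] (PadicAlgCl q) ℂ_[q]
  have hjA : ∀ y, jA y = j y := fun y => rfl
  have hjinj : Function.Injective jA := (algebraMap (PadicAlgCl q) ℂ_[q]).injective
  -- `τA` preserves the algebraic closure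
  have hrange : ∀ y : PadicAlgCl q, (τA.comp jA) y ∈ jA.range := by
    intro y
    have hyint : IsIntegral ℚ_[q] y := (Algebra.IsAlgebraic.isAlgebraic y).isIntegral
    set P : ℚ_[q][X] := minpoly ℚ_[q] y with hP
    have hPy : Polynomial.aeval y P = 0 := minpoly.aeval ℚ_[q] y
    have h1 : Polynomial.aeval ((τA.comp jA) y) P = 0 := by
      rw [Polynomial.aeval_algHom_apply, hPy, map_zero]
    have hsplit : (P.map (algebraMap ℚ_[q] (PadicAlgCl q))).Splits := IsAlgClosed.splits _
    have hmem : (τA.comp jA) y ∈ ((P.map (algebraMap ℚ_[q] (PadicAlgCl q))).map j).roots := by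
      rw [Polynomial.mem_roots', Polynomial.map_map]
      refine ⟨?_, ?_⟩
      · exact ((minpoly.monic hyint).map _).ne_zero
      · rw [Polynomial.IsRoot.def, Polynomial.eval_map]
        have h2 : j.comp (algebraMap ℚ_[q] (PadicAlgCl q)) = algebraMap ℚ_[q] ℂ_[q] :=
          (IsScalarTower.algebraMap_eq ℚ_[q] (PadicAlgCl q) ℂ_[q]).symm
        rw [h2]
        exact h1
    rw [Polynomial.Splits.roots_map hsplit, Multiset.mem_map] at hmem
    obtain ⟨z, -, hz⟩ := hmem
    exact ⟨z, hz⟩
  let τ₀ : PadicAlgCl q →ₐ[ℚ_[q]] PadicAlgCl q :=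
    (AlgEquiv.ofInjective jA hjinj).symm.toAlgHom.comp ((τA.comp jA).codRestrict jA.range hrange)
  have hτ₀ : ∀ y, jA (τ₀ y) = τA (jA y) := by
    intro y
    have := (AlgEquiv.ofInjective jA hjinj).apply_symm_apply
      ((τA.comp jA).codRestrict jA.range hrange y)
    exact congrArg Subtype.val this
  have hbij : Function.Bijective τ₀ := Algebra.IsAlgebraic.algHom_bijective τ₀
  refine ⟨AlgEquiv.ofBijective τ₀ hbij, ?_⟩
  ext x
  apply padicEmbedding_injective q
  rw [padicEmbedding_localGaloisToGlobal]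
  apply hjinj
  show jA (τ₀ (padicEmbedding q x)) = jA (padicEmbedding q (σ x))
  rw [hτ₀, hτA, hjA, ← hι', hτh, hjA, hι']

/-- The range of `localGaloisToGlobal q` is the decomposition subgroup of the `q`-adic place. -/
theorem range_localGaloisToGlobal :
    (localGaloisToGlobal q).range = (padicPlace q).decompositionSubgroup ℚ := by
  apply le_antisymm
  · rintro _ ⟨τ, rfl⟩
    exact localGaloisToGlobal_mem_decompositionSubgroup q τ
  · intro σ hσ
    obtain ⟨τ, hτ⟩ := exists_local_of_mem_decomposition q σ hσ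
    exact ⟨τ, hτ⟩

theorem continuous_padicAlgCl_algEquiv (τ : PadicAlgCl q ≃ₐ[ℚ_[q]] PadicAlgCl q) :
    Continuous τ := by
  have hiso : Isometry τ := by
    apply Isometry.of_dist_eq
    intro x y
    rw [dist_eq_norm, dist_eq_norm, ← map_sub]
    have := nnnorm_padicAlgCl_algEquiv q τ (x - y)
    exact congrArg NNReal.toReal this
  exact hiso.continuous

/-- `localGaloisToGlobal q` is injective. -/
theorem localGaloisToGlobal_injective : Function.Injective (localGaloisToGlobal q) := by
  rw [injective_iff_map_eq_one]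
  intro τ hτ
  have h1 : ∀ x : AlgebraicClosure ℚ, τ (padicEmbedding q x) = padicEmbedding q x := by
    intro x
    rw [← padicEmbedding_localGaloisToGlobal, hτ]
    rfl
  have h2 : (τ : PadicAlgCl q → PadicAlgCl q) = id :=
    DenseRange.equalizer (denseRange_padicEmbedding q) (continuous_padicAlgCl_algEquiv q τ)
      continuous_id (funext h1)
  ext y
  exact congrFun h2 y

/-- The local Galois group at `q` is isomorphic to the decomposition group of the `q`-adic
place of `ℚ̄`. -/
noncomputable def localGaloisEquivDecomposition :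
    (PadicAlgCl q ≃ₐ[ℚ_[q]] PadicAlgCl q) ≃* (padicPlace q).decompositionSubgroup ℚ :=
  (MonoidHom.ofInjective (localGaloisToGlobal_injective q)).trans
    (MulEquiv.subgroupCongr (range_localGaloisToGlobal q))

theorem localGaloisEquivDecomposition_apply (τ : PadicAlgCl q ≃ₐ[ℚ_[q]] PadicAlgCl q) :
    ((localGaloisEquivDecomposition q τ : (padicPlace q).decompositionSubgroup ℚ) :
      AlgebraicClosure ℚ ≃ₐ[ℚ] AlgebraicClosure ℚ) = localGaloisToGlobal q τ := rfl

end Fermat.Agent.S55.H175
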