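import Mathlib
import Fermat.Prelude.Def_ExtEndgame_ProductionDatum
import Fermat.Agent.S55.H175.LocalDecomp

set_option autoImplicit false
set_option linter.style.haveILetI false

/-!
# `primeLocalToGlobal` is an isomorphism onto the decomposition group of `primeLocalPlace`
-/

open scoped Pointwise

namespace Fermat.Agent.S55.H175

open ExtCitation

theorem range_primeLocalToGlobal (q : Nat.Primes) :
    (primeLocalToGlobal q).range = (primeLocalPlace q).decompositionSubgroup ℚ :=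
  letI : Fact (q : ℕ).Prime := ⟨q.2⟩
  range_localGaloisToGlobal (q : ℕ)

theorem primeLocalToGlobal_injective (q : Nat.Primes) :
    Function.Injective (primeLocalToGlobal q) :=
  letI : Fact (q : ℕ).Prime := ⟨q.2⟩
  localGaloisToGlobal_injective (q : ℕ)

theorem primeLocalToGlobal_mem_decomposition (q : Nat.Primes) (τ : primeLocalGaloisGroup q) :
    primeLocalToGlobal q τ ∈ (primeLocalPlace q).decompositionSubgroup ℚ := by
  rw [← range_primeLocalToGlobal]
  exact ⟨τ, rfl⟩

theorem exists_primeLocal_of_mem_decomposition (q : Nat.Primes)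
    (σ : AlgebraicClosure ℚ ≃ₐ[ℚ] AlgebraicClosure ℚ)
    (hσ : σ ∈ (primeLocalPlace q).decompositionSubgroup ℚ) :
    ∃ τ : primeLocalGaloisGroup q, primeLocalToGlobal q τ = σ := by
  rw [← range_primeLocalToGlobal] at hσ
  exact hσ

theorem primeLocalPlace_liesOverPrime (q : Nat.Primes) :
    (primeLocalPlace q).LiesOverPrime (q : ℕ) := by
  letI : Fact (q : ℕ).Prime := ⟨q.2⟩
  show ((q : ℕ) : AlgebraicClosure ℚ) ∈ (padicPlace (q : ℕ)).nonunits
  rw [ValuationSubring.mem_nonunits_iff_exists_mem_maximalIdeal]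
  have hmem : ((q : ℕ) : AlgebraicClosure ℚ) ∈ padicPlace (q : ℕ) := by
    rw [mem_padicPlace_iff_norm, norm_padicEmbedding_natCast_self]
    have : (1 : ℝ) ≤ (q : ℕ) := by exact_mod_cast q.2.one_lt.le
    exact inv_le_one_of_one_le₀ this
  refine ⟨hmem, ?_⟩
  rw [IsLocalRing.mem_maximalIdeal, mem_nonunits_iff]
  intro hu
  obtain ⟨u, hu⟩ := hu
  have h1 : ((u⁻¹ : (padicPlace (q : ℕ))ˣ) : padicPlace (q : ℕ)) * u = 1 := by simp
  have h2 : (((u⁻¹ : (padicPlace (q : ℕ))ˣ) : padicPlace (q : ℕ)) : AlgebraicClosure ℚ) *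
      ((q : ℕ) : AlgebraicClosure ℚ) = 1 := by
    have := congrArg (Subtype.val) h1
    rw [hu] at this
    simpa using this
  have h3 := ((u⁻¹ : (padicPlace (q : ℕ))ˣ) : padicPlace (q : ℕ)).2
  rw [mem_padicPlace_iff_norm] at h3
  have h4 := congrArg (fun z => ‖padicEmbedding (q : ℕ) z‖) h2
  simp only [map_mul, norm_mul, map_one, norm_one] at h4
  rw [norm_padicEmbedding_natCast_self] at h4
  have hq : (1 : ℝ) < (q : ℕ) := by exact_mod_cast q.2.one_lt
  have hinv : ((q : ℕ) : ℝ)⁻¹ < 1 := inv_lt_one_of_one_lt₀ hq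
  have hpos : (0 : ℝ) < ((q : ℕ) : ℝ)⁻¹ := by positivity
  nlinarith [norm_nonneg (padicEmbedding (q : ℕ)
    (((u⁻¹ : (padicPlace (q : ℕ))ˣ) : padicPlace (q : ℕ)) : AlgebraicClosure ℚ))]

end Fermat.Agent.S55.H175
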